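import Fermat.Agent.S55.G.Rec.Tow.Spec
import Fermat.Agent.S55.G.Rec.H63AuxField
import Fermat.Agent.S55.Bridge.H594.Unram
import Fermat.Agent.S55.Bridge.PlacePrime
import Fermat.Agent.S54.FrobExists

/-!
# S55 / layer G / block REC / adapter TOW : leaf RAM (`RamSpec p`)   (helper414)

For a level `L` of `S`, a prime `p` and `k`: choose a prime `r ∉ S`, `r ≡ 1 mod p^k`, and put
`M = L · L(r, p^k)`, `L(r, n) = auxField63 r n ⊂ ℚ(ζ_r)` (helper63, `H63AuxField`).  Then `M` is a
level of `S ∪ {r}`, `Gal(M/L) ≅ Gal(L(r, p^k)/ℚ)` has order `p^k` and is the image of the inertia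
group of any place of `ℚ̄` over `r`; in particular it fixes the prime of `M` below such a place.
-/

set_option autoImplicit false
set_option linter.style.haveILetI false
set_option linter.unusedSectionVars false

noncomputable section

namespace Fermat.Agent.S55.G.Rec.TOW.H414

open Fermat.Agent.S55 Fermat.Agent.S55.Tow Fermat.Agent.S55.E1.H594 Fermat.Agent.S55.G.Rec
open Fermat.Agent.S54 Fermat.Agent.S55.Bridge Fermat.Agent.S55.Bridge.H594
open IsDedekindDomain NumberField

/-! ## The auxiliary prime -/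

theorem exists_aux_prime (S : Finset Nat.Primes) (n : ℕ) (hn : n ≠ 0) :
    ∃ r : Nat.Primes, r ∉ S ∧ n ∣ (r : ℕ) - 1 := by
  obtain ⟨r, hr, hlt, hmod⟩ := Nat.exists_prime_gt_modEq_one (S.sup fun q => (q : ℕ)) hn
  refine ⟨⟨r, hr⟩, fun hmem => ?_, ?_⟩
  · have h1 : ((⟨r, hr⟩ : Nat.Primes) : ℕ) ≤ S.sup fun q => (q : ℕ) :=
      Finset.le_sup (f := fun q : Nat.Primes => (q : ℕ)) hmem
    exact absurd hlt (not_lt.2 h1)
  · exact (Nat.modEq_iff_dvd' hr.one_lt.le).1 hmod.symm

/-! ## The auxiliary level -/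

section Level

variable {S : Finset Nat.Primes} (L : Level S) (r : Nat.Primes) (n : ℕ)

/-- the instance `Fact r.Prime` of a `r : Nat.Primes` -/
local instance factPrime414 : Fact (r : ℕ).Prime := ⟨r.2⟩

/-- The level `M = L · L(r, n)` of `S ∪ {r}`. -/
def ramLevel : Level (insert r S) where
  F := L.F ⊔ auxField63 (r : ℕ) n
  unram := (L.unram.mono (Finset.subset_insert r S)).sup
    (auxField63_isUnramifiedOutside (r : ℕ) n (insert r S) (Finset.mem_insert_self r S))
  normalU := by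
    rw [IntermediateField.fixingSubgroup_sup]
    haveI := L.normalU
    haveI : ((auxField63 (r : ℕ) n).fixingSubgroup).Normal := by
      rw [fixingSubgroup_auxField63]
      infer_instance
    infer_instance

theorem le_ramLevel : Level.ofLE (Finset.subset_insert r S) L ≤ ramLevel L r n :=
  (le_sup_left : L.F ≤ L.F ⊔ auxField63 (r : ℕ) n)

theorem ramLevel_U : (ramLevel L r n).U = L.U ⊓ (auxChar63 (r : ℕ) n).ker := by
  show (L.F ⊔ auxField63 (r : ℕ) n).fixingSubgroup = _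
  rw [IntermediateField.fixingSubgroup_sup, fixingSubgroup_auxField63]
  rfl

/-- The character of `Gal(M/ℚ)` cutting out `L(r, n)`. -/
def ramChar : (ramLevel L r n).Gal →* (ZMod (r : ℕ))ˣ ⧸ powSubgroup63 (r : ℕ) n :=
  QuotientGroup.lift (ramLevel L r n).U (auxChar63 (r : ℕ) n) fun g hg => by
    rw [ramLevel_U] at hg
    exact hg.2

@[simp] theorem ramChar_mk (g : GQ) :
    ramChar L r n (QuotientGroup.mk g : (ramLevel L r n).Gal) = auxChar63 (r : ℕ) n g := rfl

theorem mk_mem_relGal_iff (g : GQ) :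
    (QuotientGroup.mk g : (ramLevel L r n).Gal) ∈ Level.relGal (le_ramLevel L r n) ↔ g ∈ L.U := by
  show (Level.proj (le_ramLevel L r n)) (QuotientGroup.mk g) = 1 ↔ _
  show (QuotientGroup.mk g : (Level.ofLE (Finset.subset_insert r S) L).Gal) = 1 ↔ _
  rw [QuotientGroup.eq_one_iff]
  rfl

/-- Inertia at `r` lies in `Gal(ℚ̄/L)`. -/
theorem inertia_le_U (hr : r ∉ S) (A : ValuationSubring Qbar) (hA : A.LiesOverPrime (r : ℕ)) :
    A.inertiaSubgroupIn ℚ ≤ L.U :=
  L.unram.2 r hr A hA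

/-- Every element of `Gal(M/L)` is the image of an element of the inertia group of `A`. -/
theorem exists_inertia_mk_eq (hr : r ∉ S) (A : ValuationSubring Qbar)
    (hA : A.LiesOverPrime (r : ℕ)) (z : (ramLevel L r n).Gal)
    (hz : z ∈ Level.relGal (le_ramLevel L r n)) :
    ∃ σ ∈ A.inertiaSubgroupIn ℚ, (QuotientGroup.mk σ : (ramLevel L r n).Gal) = z := by
  obtain ⟨g, rfl⟩ := QuotientGroup.mk_surjective z
  have hg : g ∈ L.U := (mk_mem_relGal_iff L r n g).1 hz
  obtain ⟨σ, hσ, h⟩ := exists_inertia_auxChar_eq63 (r : ℕ) n A hA g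
  refine ⟨σ, hσ, ?_⟩
  have hmem : σ⁻¹ * g ∈ L.U ⊓ (auxChar63 (r : ℕ) n).ker :=
    Subgroup.mem_inf.2 ⟨L.U.mul_mem (L.U.inv_mem (inertia_le_U L r hr A hA hσ)) hg,
      MonoidHom.mem_ker.2 (by rw [map_mul, map_inv, h, inv_mul_cancel])⟩
  rw [← ramLevel_U] at hmem
  exact QuotientGroup.eq.2 hmem

theorem ramChar_bijective (hr : r ∉ S) :
    Function.Bijective ((ramChar L r n).comp (Level.relGal (le_ramLevel L r n)).subtype) := by
  constructor
  · rw [injective_iff_map_eq_one]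
    rintro ⟨z, hz⟩ h
    obtain ⟨g, rfl⟩ := QuotientGroup.mk_surjective z
    have hg : g ∈ L.U := (mk_mem_relGal_iff L r n g).1 hz
    have h1 : auxChar63 (r : ℕ) n g = 1 := h
    apply Subtype.ext
    show (QuotientGroup.mk g : (ramLevel L r n).Gal) = 1
    rw [QuotientGroup.eq_one_iff, ramLevel_U]
    exact ⟨hg, h1⟩
  · intro c
    obtain ⟨g₀, rfl⟩ := auxChar63_surjective (r : ℕ) n c
    obtain ⟨A, hA⟩ := exists_valuationSubring_liesOver (r : ℕ) r.2
    obtain ⟨σ, hσ, h⟩ := exists_inertia_auxChar_eq63 (r : ℕ) n A hA g₀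
    refine ⟨⟨QuotientGroup.mk σ, (mk_mem_relGal_iff L r n σ).2 (inertia_le_U L r hr A hA hσ)⟩, ?_⟩
    exact h

theorem card_relGal (hr : r ∉ S) (hn : n ∣ (r : ℕ) - 1) :
    Nat.card (Level.relGal (le_ramLevel L r n)) = n := by
  rw [Nat.card_congr (Equiv.ofBijective _ (ramChar_bijective L r n hr))]
  exact card_quotient_powSubgroup63 (r : ℕ) n hn

/-! ## `Gal(M/L)` fixes a prime above `r` -/

attribute [local instance] isAlgebraic_Qbar isGalois_Qbar

theorem algebraMap_mk_smul {T : Finset Nat.Primes} (M : Level T) (σ : GQ) (x : 𝓞 M.F) :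
    algebraMap (𝓞 M.F) Qbar ((QuotientGroup.mk σ : M.Gal) • x) =
      σ (algebraMap (𝓞 M.F) Qbar x) :=
  level_mk_smul M σ (algebraMap (𝓞 M.F) M.F x)

theorem smul_mem_primeBelowF_iff {T : Finset Nat.Primes} (M : Level T)
    (A : ValuationSubring Qbar) (σ : GQ) (hσ : σ ∈ A.inertiaSubgroupIn ℚ) (x : 𝓞 M.F) :
    (QuotientGroup.mk σ : M.Gal) • x ∈ primeBelowF M.F A ↔ x ∈ primeBelowF M.F A := by
  have key : (QuotientGroup.mk σ : M.Gal) • x - x ∈ primeBelowF M.F A := by
    rw [mem_primeBelowF, map_sub, algebraMap_mk_smul]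
    exact ((mem_inertiaSubgroupIn_iff A σ).mp hσ).2 _ (algebraMap_ringOfIntegers_mem M.F A x)
  constructor
  · intro h
    have := (primeBelowF M.F A).sub_mem h key
    simpa using this
  · intro h
    have := (primeBelowF M.F A).add_mem key h
    simpa using this

theorem fixesPrimeAbove_relGal (hr : r ∉ S) :
    FixesPrimeAbove (ramLevel L r n) r (Level.relGal (le_ramLevel L r n)) := by
  obtain ⟨A, hA⟩ := exists_valuationSubring_liesOver (r : ℕ) r.2
  refine ⟨placePrime (ramLevel L r n).F A r.2 hA,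
    natCast_mem_primeBelowF (ramLevel L r n).F A hA, ?_⟩
  intro z hz
  obtain ⟨σ, hσ, rfl⟩ := exists_inertia_mk_eq L r n hr A hA z hz
  apply HeightOneSpectrum.ext
  ext x
  rw [G.mem_primeSMul_iff]
  show (QuotientGroup.mk σ : (ramLevel L r n).Gal)⁻¹ • x ∈ primeBelowF (ramLevel L r n).F A ↔
    x ∈ primeBelowF (ramLevel L r n).F A
  exact smul_mem_primeBelowF_iff (ramLevel L r n) A σ⁻¹
    ((A.inertiaSubgroupIn ℚ).inv_mem hσ) x

end Level

/-- **RAM** (`RamSpec p`): the auxiliary level. -/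
theorem ramSpec (p : ℕ) : RamSpec p := by
  intro hp S L k
  obtain ⟨r, hr, hdvd⟩ := exists_aux_prime S (p ^ k) (pow_ne_zero k hp.ne_zero)
  exact ⟨r, hr, ramLevel L r (p ^ k), le_ramLevel L r (p ^ k),
    card_relGal L r (p ^ k) hr hdvd, fixesPrimeAbove_relGal L r (p ^ k) hr⟩

end Fermat.Agent.S55.G.Rec.TOW.H414
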